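/-
S55 / 47f-COUNT-WIRE (helper23, owner of the literal plug (P7') `Contract34.HilbertCount p S`).

THE ASSEMBLY.  For a level `U ∈ (globalLevels S).levels` (normal, finite index, `μ_p` trivial on
`U`), `π := QuotientGroup.mk' U`, the count lives on

  `G_U := ↥π.ker` with `levU := kerLevels (globalLevels S) (hker_mk' hU)` and TRIVIAL coefficients
  `kU := triv (ZMod p) ↥π.ker`   (`= H^*(G_{L,S}, 𝔽_p)`, `L` the fixed field of `U`),

with the conjugate family of helper84 (`ShaTransport84`): index `w = ⟨q, i⟩ : Σ q : ↥S, J q`,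
local group `conjGroup π (rS S) w = ↥(π.comp (primeLocalToGlobal q)).ker` with
`conjLevels (hrS S) (hker_mk' hU) w = kerLevels (primeLevels q) _`, and the maps
`conjMap π (rS S) t w : n ↦ t q i * r_q n * (t q i)⁻¹`.

`LevelInputs p S U hU t` lists ALL the inputs at the level `U` (named fields, each with its
producer); `levelCount_of_inputs` turns them into helper84's `LevelCount`, and
`hilbertCount_of_inputs` into the literal plug.

The proof is `CountWire96.finrank_sha2_le_finrank_sha1` (helper96; = `LevelCup47.Iso.le_finrank_sha1`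
of helper47) + `ShaTransport84.hilbertCount_of_levelCount` (helper84).
-/
import Fermat.Agent.S55.ShaTransport84.Wire
import Fermat.Agent.S55.LevelCup47.Symbol

set_option autoImplicit false

open CategoryTheory Module groupCohomology

namespace Fermat.Agent.S55.CountWire23

open Fermat.Agent.S55.Profin15 Fermat.Agent.S55.ShapiroLevel32 Fermat.Agent.S55.ShaTransport84
open Fermat.Agent.S55.LevelCup47
open Fermat.Agent.Lib.FrobeniusExists (Qb GQ)
open Fermat.Agent.S55.Contract34

variable (p : ℕ) [Fact p.Prime] (S : Finset Nat.Primes)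

section Level

variable (U : Subgroup GQ) [U.Normal] (hU : U ∈ (globalLevels S).levels)
  {J : ↥S → Type} (t : ∀ q : ↥S, J q → GQ)

/-- the group `G_U = ↥(mk' U).ker` (`= ↥U`) -/
abbrev GU : Type := ↥(QuotientGroup.mk' U).ker

/-- the level structure on `G_U`: its level cohomology is `H^*(G_{L,S}, -)` -/
noncomputable abbrev levU : LevelStr (GU U) := kerLevels (globalLevels S) (hker_mk' hU)

/-- trivial coefficients `𝔽_p` on `G_U` -/
noncomputable abbrev kU : Rep (ZMod p) (GU U) := triv (ZMod p) (GU U)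

/-- the local group at `w = ⟨q, i⟩` : `↥((mk' U).comp (primeLocalToGlobal q)).ker` -/
abbrev locGroup (w : Σ q : ↥S, J q) : Type :=
  conjGroup (J := J) (QuotientGroup.mk' U) (rS S) w

/-- the local level structure at `w = ⟨q, i⟩` : `kerLevels (primeLevels q) _` -/
noncomputable abbrev locLevels (w : Σ q : ↥S, J q) : LevelStr (locGroup S U (J := J) w) :=
  conjLevels (J := J) (hrS S) (hker_mk' hU) w

/-- the local map at `w = ⟨q, i⟩` : `n ↦ t q i * r_q n * (t q i)⁻¹` -/
noncomputable abbrev locMap (w : Σ q : ↥S, J q) : locGroup S U (J := J) w →* GU U :=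
  conjMap (QuotientGroup.mk' U) (rS S) t w

lemma locMap_isContinuous (w : Σ q : ↥S, J q) :
    LevelStr.IsContinuous (locLevels S U hU w) (levU S U hU) (locMap S U t w) :=
  conjMap_isContinuous (hrS S) (hker_mk' hU) t w

/-- trivial coefficients `𝔽_p` on the local group at `w` -/
noncomputable abbrev kLoc (w : Σ q : ↥S, J q) : Rep (ZMod p) (locGroup S U (J := J) w) :=
  triv (ZMod p) (locGroup S U (J := J) w)

/-- restriction `H¹(G_U; 𝔽_p) → H¹(local group at w; 𝔽_p)` along `locMap` -/
noncomputable abbrev locRes₁ (w : Σ q : ↥S, J q) :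
    (levU S U hU).H1 (kU p U) →ₗ[ZMod p] (locLevels S U hU w).H1 (kLoc p S U w) :=
  (locMap_isContinuous S U hU t w).res₁ (kU p U)

/-- restriction `H²(G_U; 𝔽_p) → H²(local group at w; 𝔽_p)` along `locMap` -/
noncomputable abbrev locRes₂ (w : Σ q : ↥S, J q) :
    (levU S U hU).H2 (kU p U) →ₗ[ZMod p] (locLevels S U hU w).H2 (kLoc p S U w) :=
  (locMap_isContinuous S U hU t w).res₂ (kU p U)

/-- the local form `(x, y) ↦ Λ (x ∪ y)` on `H¹(local group at w; 𝔽_p)` (cup product for the
multiplication pairing `𝔽_p × 𝔽_p → 𝔽_p`) -/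
noncomputable abbrev locForm (w : Σ q : ↥S, J q)
    (Λ : (locLevels S U hU w).H2 (kLoc p S U w) →ₗ[ZMod p] ZMod p) :
    (locLevels S U hU w).H1 (kLoc p S U w) →ₗ[ZMod p]
      (locLevels S U hU w).H1 (kLoc p S U w) →ₗ[ZMod p] ZMod p :=
  (cupH11 (Symbol.mulPairing (ZMod p) (locGroup S U (J := J) w))
    (Symbol.isSmooth_trivial (locLevels S U hU w))).compr₂ Λ

/-- **ALL INPUTS OF THE COUNT AT THE LEVEL `U`** for the conjugate family `t`.
Producers: (cov) `ShaTransport84.covers_canonT`; (K)+(Q)-part of `hB`: helper92 `KummerK` +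
46-S1 at level `U` (`CountWire96.add_le_finrank_H1`); `hW`: helper50 `sum_finrank_localH1_le`;
`hnd`: 47d (helper21 + `LevelCup47.Symbol`); `hrec`: reciprocity at the level `U`;
`finSha₂`, `hQ`: 46-S1 at level `U`. -/
structure LevelInputs [Fintype (Σ q : ↥S, J q)] : Prop where
  /-- the conjugators cover the places of `L` above every `q ∈ S` -/
  covers : ∀ q : ↥S, Covers (QuotientGroup.mk' U) (rS S) t q
  /-- `H¹(G_{L,S}, 𝔽_p)` is finite -/
  finH1 : Module.Finite (ZMod p) ((levU S U hU).H1 (kU p U))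
  /-- the local `H¹(L_w, 𝔽_p)` are finite -/
  finLoc : ∀ w : Σ q : ↥S, J q, Module.Finite (ZMod p) ((locLevels S U hU w).H1 (kLoc p S U w))
  /-- the numerical inputs -/
  exists_count : ∃ (Λ : ∀ w : Σ q : ↥S, J q,
      (locLevels S U hU w).H2 (kLoc p S U w) →ₗ[ZMod p] ZMod p) (s c : ℕ),
    -- (L) `hnd`: local Tate duality, left non-degeneracy of `Λ_w ∘ ∪`
    (∀ w : Σ q : ↥S, J q, (locForm p S U hU w (Λ w)).SeparatingLeft) ∧
    -- (R) `hrec`: reciprocity at the level `U`
    (∀ z : (levU S U hU).H2 (kU p U),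
      ∑ w : Σ q : ↥S, J q, Λ w (locRes₂ p S U hU t w z) = 0) ∧
    -- (L) `hW`: `∑_w dim H¹(L_w, 𝔽_p) ≤ 2 s`
    (∑ w : Σ q : ↥S, J q,
      finrank (ZMod p) ((locLevels S U hU w).H1 (kLoc p S U w)) ≤ 2 * s) ∧
    -- (K)+(Q) `hB`: `s + c ≤ dim H¹(G_{L,S}, 𝔽_p)`
    (s + c ≤ finrank (ZMod p) ((levU S U hU).H1 (kU p U))) ∧
    -- (Q): `Ш²` at the level `U` is finite of dimension `≤ c`
    Module.Finite (ZMod p) ↥(USha₂ (k := ZMod p) (hrS S) (hker_mk' hU) t) ∧
    finrank (ZMod p) ↥(USha₂ (k := ZMod p) (hrS S) (hker_mk' hU) t) ≤ c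

variable {p S U}

/-- **the count at the level `U` from its inputs** -/
theorem levelCount_of_inputs {hU : U ∈ (globalLevels S).levels} {J : ↥S → Type}
    [Fintype (Σ q : ↥S, J q)] {t : ∀ q : ↥S, J q → GQ} (h : LevelInputs p S U hU t) :
    LevelCount p S U hU := by
  classical
  obtain ⟨hcov, hfin1, hfinLoc, Λ, s, c, hnd, hrec, hW, hB, hfin2, hQ⟩ := h
  refine ⟨J, t, hcov, hfin1, hfin2, ?_⟩
  have : FiniteDimensional (ZMod p) ((levU S U hU).H1 (kU p U)) := hfin1
  have : ∀ w : Σ q : ↥S, J q, FiniteDimensional (ZMod p)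
      ((locLevels S U hU w).H1 (Rep.res (locMap S U t w) (kU p U))) := hfinLoc
  have key := Iso.le_finrank_sha1 (k := ZMod p) (𝒰 := levU S U hU)
    (A := kU p U) (C := kU p U) (Symbol.mulPairing (ZMod p) (GU U))
    (ι := Σ q : ↥S, J q) (H := fun w => locGroup S U (J := J) w)
    (𝒱 := fun w => locLevels S U hU w) (f := fun w => locMap S U t w)
    (fun w => locMap_isContinuous S U hU t w) Λ
    (Symbol.isSmooth_trivial (levU S U hU)) hnd hrec (d := s) (c := c) hW hB
  exact hQ.trans key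

end Level

variable {p S}

/-- **THE LITERAL PLUG (P7')** `Contract34.HilbertCount p S` from the inputs at every level `U` on
which `μ_p` is trivial. -/
theorem hilbertCount_of_inputs (hp2 : p ≠ 2)
    (h : ∀ (U : Subgroup GQ) (hU : U ∈ (globalLevels S).levels), (∀ s ∈ U, (mu p).ρ s = 1) →
      ∃ (J : ↥S → Type) (_ : Fintype (Σ q : ↥S, J q)) (t : ∀ q : ↥S, J q → GQ),
        @LevelInputs p _ S U ((globalLevels S).normal U hU) hU J t _) :
    HilbertCount p S :=
  hilbertCount_of_levelCount hp2 fun U hU hmu => by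
    obtain ⟨J, hJ, t, hin⟩ := h U hU hmu
    exact @levelCount_of_inputs p _ S U ((globalLevels S).normal U hU) hU J hJ t hin

end Fermat.Agent.S55.CountWire23
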