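/-
S55 / 47f-COUNT-WIRE (helper23): the field `finH1` of `CountWire23.LevelInputs`, UNCONDITIONALLY:
`H¹(G_{L,S}, 𝔽_p) = H¹(levU; kU)` is finite, by Shapiro (`ShapiroLevel32.shapiroH1`) from the
finiteness of `H¹(G_S, 𝔽_p[G_ℚ/U])` (`Fin62.finite_continuousH1S`, helper62).
-/
import Fermat.Agent.S55.CountWire23.Main
import Fermat.Agent.S55.Fin62.Main

set_option autoImplicit false

open CategoryTheory Module groupCohomology

namespace Fermat.Agent.S55.CountWire23

open Fermat.Agent.S55.Profin15 Fermat.Agent.S55.ShapiroLevel32 Fermat.Agent.S55.ShaTransport84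
open Fermat.Agent.Lib.FrobeniusExists (Qb GQ)
open Fermat.Agent.S55.Contract34

variable {p : ℕ} [Fact p.Prime] {S : Finset Nat.Primes}

/-- a normal subgroup acts trivially on its coset space -/
lemma perm_ρ_eq_one_of_mem (U : Subgroup GQ) [U.Normal] {s : GQ} (hs : s ∈ U) :
    (perm p U).ρ s = 1 := by
  apply LinearMap.ext
  intro a
  apply MonoidAlgebra.ext
  apply Finsupp.ext
  intro y
  show ((Representation.ofMulAction (ZMod p) GQ (GQ ⧸ U) s) a).coeff y = a.coeff y
  rw [ofMulAction_coeff_apply]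
  congr 1
  induction y using QuotientGroup.induction_on with
  | H x =>
    show ((s⁻¹ * x : GQ) : GQ ⧸ U) = (x : GQ ⧸ U)
    rw [QuotientGroup.eq]
    have : (s⁻¹ * x)⁻¹ * x = x⁻¹ * s * x := by group
    rw [this]
    have h := (inferInstance : U.Normal).conj_mem s hs x⁻¹
    simpa using h

/-- **`finH1`**: `H¹(levU; kU)` is finite for every level `U`. -/
theorem finH1_levU (U : Subgroup GQ) [U.Normal] (hU : U ∈ (globalLevels S).levels) :
    Module.Finite (ZMod p) ((levU S U hU).H1 (kU p U)) := by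
  classical
  obtain ⟨σ⟩ := exists_sect (QuotientGroup.mk'_surjective U)
  have hfi : U.FiniteIndex := (globalLevels S).finiteIndex U hU
  have hfinQ : Finite (GQ ⧸ U) := Subgroup.finite_quotient_of_finiteIndex
  obtain ⟨-, F, hF, hUF⟩ := mem_globalLevels_iff.1 hU
  have hFfin : FiniteDimensional ℚ F := hF.1
  -- `perm p U` is a finite `𝔽_p`-space
  have hfinPerm : Finite (perm p U) := by
    have e : (perm p U) ≃ (GQ ⧸ U → ZMod p) := (permCoord (ZMod p) U).c.toEquiv
    exact Finite.of_equiv _ e.symm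
  have hfdPerm : FiniteDimensional (ZMod p) (perm p U) := Module.Finite.of_finite
  -- smoothness
  have hsm : ∀ m : perm p U, ∃ F' : IntermediateField ℚ Qb, FiniteDimensional ℚ F' ∧
      ∀ s ∈ F'.fixingSubgroup, (perm p U).ρ s m = m := by
    intro m
    refine ⟨F, hFfin, fun s hs => ?_⟩
    have hsU : s ∈ U := hUF ▸ hs
    rw [perm_ρ_eq_one_of_mem U hsU]
    rfl
  have h1 : Finite ↥(continuousH1S S (perm p U)) := Fermat.Agent.S55.Fin62.Main.finite_continuousH1S S (perm p U) hsm
  have h2 : Finite ((globalLevels S).H1 (perm p U)) :=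
    Finite.of_equiv _ (continuousH1SEquiv S (perm p U)).toEquiv
  have h3 : Finite ((levU S U hU).H1 (kU p U)) :=
    Finite.of_equiv _
      (shapiroH1 (globalLevels S) (hker_mk' hU) (permCoord (ZMod p) U) σ).toEquiv
  exact Module.Finite.of_finite

end Fermat.Agent.S55.CountWire23
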