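/-
S55 / 47f-COUNT-WIRE (helper23): INDEPENDENCE OF THE COVERING FAMILY.

The level-`U` Tate–Shafarevich groups `ShaTransport84.USha₁/USha₂` (trivial coefficients) are cut
out by restriction along the conjugated embeddings `conjKer π r t : n ↦ t * r n * t⁻¹` for a family
of conjugators `t`.  If `π t' = π t * π (r h)` (same `π (r H)`-orbit of `Γ`, i.e. same place),
then `conjKer π r t' = inn_v ∘ conjKer π r t ∘ c_h` with `v ∈ π.ker`, `c_h` = conjugation by `h`
on `(π.comp r).ker`; inner automorphisms act trivially on cohomology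
(`ShapiroLevel32.conj_cocycle₂`) and `c_h` is an automorphism, so the kernels of the two
restriction maps agree.  Hence `USha₁`, `USha₂` depend only on the set of orbits met by the family:
`USha₂_le_of_covers`, `USha₂_eq_of_covers` (and the same in degree `1`).

USE: the producers of `hrec` (reciprocity), `hsha` (46-S1) and `hW` (place count) of
`CountWire23.LevelInputs` may each use their own covering family of conjugators.
-/
import Fermat.Agent.S55.ShaTransport84.Transport
import Fermat.Agent.S55.ShapiroLevel32.Conj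

set_option autoImplicit false

universe u

open CategoryTheory groupCohomology

namespace Fermat.Agent.S55.CountWire23

open Fermat.Agent.S55.Profin15 Fermat.Agent.S55.ShapiroLevel32 Fermat.Agent.S55.ShaTransport84

section One

variable {k G Γ H : Type u} [CommRing k] [Group G] [Group Γ] [Group H]
  {𝒰 : LevelStr G} {𝒱 : LevelStr H} {r : H →* G} {π : G →* Γ}
  (hr : LevelStr.IsContinuous 𝒱 𝒰 r) (hker : ∃ V ∈ 𝒰.levels, V ≤ π.ker)

/-- conjugation by `h : H` on the normal subgroup `(π.comp r).ker` -/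
def innKer (π : G →* Γ) (r : H →* G) (h : H) : (π.comp r).ker →* (π.comp r).ker where
  toFun n := ⟨h * n * h⁻¹, by
    have hn : π (r (n : H)) = 1 := n.2
    rw [MonoidHom.mem_ker, MonoidHom.comp_apply, map_mul, map_mul, map_mul, map_mul, hn, mul_one,
      map_inv, map_inv, mul_inv_cancel]⟩
  map_one' := by
    apply Subtype.ext
    simp
  map_mul' a b := by
    apply Subtype.ext
    simp only [Subgroup.coe_mul]
    group

@[simp] lemma coe_innKer (h : H) (n : (π.comp r).ker) :
    ((innKer π r h n : (π.comp r).ker) : H) = h * n * h⁻¹ := rfl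

/-- the element `v = t' * (t * r h)⁻¹` of `π.ker` -/
def orbitElt {t t' : G} {h : H} (hh : π t' = π t * π (r h)) : π.ker :=
  ⟨t' * (t * r h)⁻¹, by
    rw [MonoidHom.mem_ker, map_mul, map_inv, map_mul, hh, mul_inv_cancel]⟩

lemma conjKer_eq {t t' : G} {h : H} (hh : π t' = π t * π (r h)) (n : (π.comp r).ker) :
    conjKer π r t' n =
      orbitElt hh * conjKer π r t (innKer π r h n) * (orbitElt hh)⁻¹ := by
  apply Subtype.ext
  simp only [coe_conjKer, Subgroup.coe_mul, Subgroup.coe_inv, coe_innKer, orbitElt, map_mul,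
    map_inv]
  group

/-- `b ∘ c_h` is a level cochain when `b` is -/
lemma isConst₁_comp_innKer {X : Type*} (h : H) {b : (π.comp r).ker → X}
    (hb : (kerLevels 𝒱 (hker_comp hr hker)).IsConst₁ b) :
    (kerLevels 𝒱 (hker_comp hr hker)).IsConst₁ (fun n => b (innKer π r h n)) := by
  obtain ⟨W', ⟨V, hV, hle, rfl⟩, hc⟩ := hb
  refine ⟨V.subgroupOf (π.comp r).ker, ⟨V, hV, hle, rfl⟩, fun n s hs => ?_⟩
  have hs' : innKer π r h s ∈ V.subgroupOf (π.comp r).ker := by
    rw [Subgroup.mem_subgroupOf, coe_innKer]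
    exact (𝒱.normal V hV).conj_mem _ (Subgroup.mem_subgroupOf.1 hs) h
  show b (innKer π r h (n * s)) = b (innKer π r h n)
  rw [map_mul]
  exact hc _ _ hs'

/-- **degree 2**: the kernel of the restriction along `conjKer π r t` only depends on the orbit
`π t * π (r H)`. -/
theorem res₂_conjKer_eq_zero_of_orbit {t t' : G} {h : H} (hh : π t' = π t * π (r h))
    (z : (kerLevels 𝒰 hker).H2 (triv k π.ker))
    (hz : (conjKer_isContinuous hr hker t).res₂ (triv k π.ker) z = 0) :
    (conjKer_isContinuous hr hker t').res₂ (triv k π.ker) z = 0 := by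
  obtain ⟨f, rfl⟩ := Submodule.mkQ_surjective _ z
  have hz' : (kerLevels 𝒱 (hker_comp hr hker)).H2π _
      ((conjKer_isContinuous hr hker t).resZ₂ (triv k π.ker) f) = 0 := hz
  rw [LevelStr.H2π_eq_zero_iff, LevelStr.mem_B₂_iff] at hz'
  obtain ⟨b, hb, hbf⟩ := hz'
  show (kerLevels 𝒱 (hker_comp hr hker)).H2π _
      ((conjKer_isContinuous hr hker t').resZ₂ (triv k π.ker) f) = 0
  rw [LevelStr.H2π_eq_zero_iff, LevelStr.mem_B₂_iff]
  -- the conjugation homotopy for `v`
  set v : π.ker := orbitElt hh with hv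
  set C : π.ker → triv k π.ker :=
    conjHom₂ (triv k π.ker) v (f : π.ker × π.ker → triv k π.ker) with hCdef
  have hC : (kerLevels 𝒰 hker).IsConst₁ C :=
    isConst₁_conjHom₂ (triv k π.ker) (kerLevels 𝒰 hker) v f.2.2
  refine ⟨fun n => b (innKer π r h n) - C (conjKer π r t' n), ?_, ?_⟩
  · have h1 := isConst₁_comp_innKer hr hker h hb
    have h2 := (conjKer_isContinuous hr hker t').isConst₁ hC
    obtain ⟨W₁, hW₁, hc₁⟩ := h1
    obtain ⟨W₂, hW₂, hle₂, hc₂⟩ := LevelStr.IsConst₁.exists_le h2 hW₁
    exact ⟨W₂, hW₂, fun n s hs => by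
      show b (innKer π r h (n * s)) - C (conjKer π r t' (n * s)) =
        b (innKer π r h n) - C (conjKer π r t' n)
      have e1 : b (innKer π r h (n * s)) = b (innKer π r h n) := hc₁ n s (hle₂ hs)
      have e2 : C (conjKer π r t' (n * s)) = C (conjKer π r t' n) := hc₂ n s hs
      rw [e1, e2]⟩
  · funext ⟨n, n'⟩
    have key := conj_cocycle₂ (triv k π.ker) f.2.1 v
      (conjKer π r t (innKer π r h n)) (conjKer π r t (innKer π r h n'))
    rw [← conjKer_eq hh n, ← conjKer_eq hh n'] at key
    have hbf' : (d₁₂ (triv k (π.comp r).ker)).hom b (innKer π r h n, innKer π r h n') =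
        (f : π.ker × π.ker → triv k π.ker)
          (conjKer π r t (innKer π r h n), conjKer π r t (innKer π r h n')) :=
      congrFun hbf (innKer π r h n, innKer π r h n')
    rw [d₁₂_triv] at hbf' key
    have hρ : (triv k π.ker).ρ v ((f : π.ker × π.ker → triv k π.ker)
        (conjKer π r t (innKer π r h n), conjKer π r t (innKer π r h n'))) =
        (f : π.ker × π.ker → triv k π.ker)
          (conjKer π r t (innKer π r h n), conjKer π r t (innKer π r h n')) := rfl
    rw [hρ] at key
    show (d₁₂ (triv k (π.comp r).ker)).hom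
        (fun n => b (innKer π r h n) - C (conjKer π r t' n)) (n, n') =
      (f : π.ker × π.ker → triv k π.ker) (conjKer π r t' n, conjKer π r t' n')
    rw [d₁₂_triv]
    simp only [map_mul] at hbf' key ⊢
    linear_combination (norm := skip) hbf' + key
    abel

/-- **degree 1**: the same for `H¹` (classes are homomorphisms). -/
theorem res₁_conjKer_eq_zero_of_orbit {t t' : G} {h : H} (hh : π t' = π t * π (r h))
    (z : (kerLevels 𝒰 hker).H1 (triv k π.ker))
    (hz : (conjKer_isContinuous hr hker t).res₁ (triv k π.ker) z = 0) :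
    (conjKer_isContinuous hr hker t').res₁ (triv k π.ker) z = 0 := by
  obtain ⟨x, rfl⟩ := Submodule.mkQ_surjective _ z
  have hz' : (kerLevels 𝒱 (hker_comp hr hker)).H1π _
      ((conjKer_isContinuous hr hker t).resZ₁ (triv k π.ker) x) = 0 := hz
  rw [LevelStr.H1π_eq_zero_iff] at hz'
  obtain ⟨a, ha⟩ := hz'
  show (kerLevels 𝒱 (hker_comp hr hker)).H1π _
      ((conjKer_isContinuous hr hker t').resZ₁ (triv k π.ker) x) = 0
  rw [LevelStr.H1π_eq_zero_iff]
  refine ⟨0, ?_⟩
  rw [map_zero]
  funext n
  have hx := (mem_cocycles₁_triv (x : π.ker → triv k π.ker)).1 x.2.1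
  have h0 : ∀ m : (π.comp r).ker, (x : π.ker → triv k π.ker) (conjKer π r t m) = 0 := by
    intro m
    have h1 : (d₀₁ (triv k (π.comp r).ker)).hom a m =
        (x : π.ker → triv k π.ker) (conjKer π r t m) := congrFun ha m
    rw [d₀₁_triv] at h1
    exact h1.symm
  have h1 : (x : π.ker → triv k π.ker) 1 = 0 := by
    have h2 := hx 1 1
    rw [mul_one] at h2
    exact left_eq_add.mp h2
  have hv : ∀ g : π.ker, (x : π.ker → triv k π.ker) g⁻¹ = -(x : π.ker → triv k π.ker) g := by
    intro g
    have h3 := hx g g⁻¹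
    rw [mul_inv_cancel, h1] at h3
    exact eq_neg_of_add_eq_zero_left h3.symm
  show (0 : (π.comp r).ker → triv k (π.comp r).ker) n =
    (x : π.ker → triv k π.ker) (conjKer π r t' n)
  rw [conjKer_eq hh n, hx, hx, hv, h0]
  simp

end One

section Family

variable {k G Γ : Type u} [CommRing k] [Group G] [Group Γ]
variable {𝒰 : LevelStr G} {π : G →* Γ}
variable {I : Type*} {Hl : I → Type u} [∀ v, Group (Hl v)] {𝒱 : ∀ v, LevelStr (Hl v)}
  {r : ∀ v, Hl v →* G} (hr : ∀ v, LevelStr.IsContinuous (𝒱 v) 𝒰 (r v))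
  (hker : ∃ V ∈ 𝒰.levels, V ≤ π.ker)
  {J J' : I → Type*} (t : ∀ v, J v → G) (t' : ∀ v, J' v → G)

/-- **`USha₂` only depends on the orbits met by the family.** -/
theorem USha₂_le_of_covers (hcov : ∀ v, Covers π r t v) :
    USha₂ (k := k) hr hker t ≤ USha₂ (k := k) hr hker t' := by
  intro z hz
  rw [mem_USha₂_iff] at hz ⊢
  intro v i'
  obtain ⟨i, h, hh⟩ := hcov v (π (t' v i'))
  exact res₂_conjKer_eq_zero_of_orbit (hr v) hker hh.symm z (hz v i)

theorem USha₂_eq_of_covers (hcov : ∀ v, Covers π r t v) (hcov' : ∀ v, Covers π r t' v) :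
    USha₂ (k := k) hr hker t = USha₂ (k := k) hr hker t' :=
  le_antisymm (USha₂_le_of_covers hr hker t t' hcov) (USha₂_le_of_covers hr hker t' t hcov')

/-- **`USha₁` only depends on the orbits met by the family.** -/
theorem USha₁_le_of_covers (hcov : ∀ v, Covers π r t v) :
    USha₁ (k := k) hr hker t ≤ USha₁ (k := k) hr hker t' := by
  intro z hz
  rw [mem_USha₁_iff] at hz ⊢
  intro v i'
  obtain ⟨i, h, hh⟩ := hcov v (π (t' v i'))
  exact res₁_conjKer_eq_zero_of_orbit (hr v) hker hh.symm z (hz v i)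

theorem USha₁_eq_of_covers (hcov : ∀ v, Covers π r t v) (hcov' : ∀ v, Covers π r t' v) :
    USha₁ (k := k) hr hker t = USha₁ (k := k) hr hker t' :=
  le_antisymm (USha₁_le_of_covers hr hker t t' hcov) (USha₁_le_of_covers hr hker t' t hcov')

end Family

end Fermat.Agent.S55.CountWire23
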