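/-
S55 / 47f-COUNT-WIRE (helper23): the literal plug (P7') from the inputs at the CANONICAL conjugate
family of helper84 (`ShaTransport84.canonT`): index
`canonJ S U q = (G_ℚ ⧸ U) ⧸ range ((mk' U).comp (primeLocalToGlobal q))`
(= the places above `q` of the fixed field `L` of `U`), conjugators `canonT' S U q j` = lifts of
coset representatives.  The fields `covers` and `finH1` of `LevelInputs` are discharged here
(`covers_canonT`, `finH1_levU`), so that only the ARITHMETIC inputs remain: `CanonInputs`.
-/
import Fermat.Agent.S55.CountWire23.FinH1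

set_option autoImplicit false

open CategoryTheory Module groupCohomology

namespace Fermat.Agent.S55.CountWire23

open Fermat.Agent.S55.Profin15 Fermat.Agent.S55.ShapiroLevel32 Fermat.Agent.S55.ShaTransport84
open Fermat.Agent.S55.LevelCup47
open Fermat.Agent.Lib.FrobeniusExists (Qb GQ)
open Fermat.Agent.S55.Contract34

variable (p : ℕ) [Fact p.Prime] (S : Finset Nat.Primes)

section Level

variable (U : Subgroup GQ) [U.Normal]

/-- the canonical index set at `q ∈ S`: the places of `L = Qb^U` above `q` -/
abbrev canonJ (q : ↥S) : Type := CanonJ (QuotientGroup.mk' U) (rS S) q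

/-- the canonical conjugators: lifts to `G_ℚ` of coset representatives -/
noncomputable abbrev canonT' (q : ↥S) (j : canonJ S U q) : GQ :=
  canonT (QuotientGroup.mk'_surjective U) (rS S) q j

instance [Finite (GQ ⧸ U)] (q : ↥S) : Finite (canonJ S U q) :=
  inferInstanceAs (Finite ((GQ ⧸ U) ⧸ ((QuotientGroup.mk' U).comp (rS S q)).range))

/-- the (classical) `Fintype` structure on the index set of the canonical family -/
@[instance_reducible]
noncomputable def canonFintype [Finite (GQ ⧸ U)] : Fintype (Σ q : ↥S, canonJ S U q) :=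
  Fintype.ofFinite _

variable (hU : U ∈ (globalLevels S).levels)

/-- **THE ARITHMETIC INPUTS OF THE COUNT AT THE LEVEL `U`**, canonical family.
(`Fintype` structure on the index set: ANY, it is a subsingleton.) -/
structure CanonInputs [Fintype (Σ q : ↥S, canonJ S U q)] : Prop where
  /-- the local `H¹(L_w, 𝔽_p)` are finite -/
  finLoc : ∀ w : Σ q : ↥S, canonJ S U q,
    Module.Finite (ZMod p) ((locLevels S U hU w).H1 (kLoc p S U w))
  /-- the numerical inputs -/
  exists_count : ∃ (Λ : ∀ w : Σ q : ↥S, canonJ S U q,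
      (locLevels S U hU w).H2 (kLoc p S U w) →ₗ[ZMod p] ZMod p) (s c : ℕ),
    (∀ w : Σ q : ↥S, canonJ S U q, (locForm p S U hU w (Λ w)).SeparatingLeft) ∧
    (∀ z : (levU S U hU).H2 (kU p U),
      ∑ w : Σ q : ↥S, canonJ S U q, Λ w (locRes₂ p S U hU (canonT' S U) w z) = 0) ∧
    (∑ w : Σ q : ↥S, canonJ S U q,
      finrank (ZMod p) ((locLevels S U hU w).H1 (kLoc p S U w)) ≤ 2 * s) ∧
    (s + c ≤ finrank (ZMod p) ((levU S U hU).H1 (kU p U))) ∧
    Module.Finite (ZMod p) ↥(USha₂ (k := ZMod p) (hrS S) (hker_mk' hU) (canonT' S U)) ∧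
    finrank (ZMod p) ↥(USha₂ (k := ZMod p) (hrS S) (hker_mk' hU) (canonT' S U)) ≤ c

variable {p S U hU}

theorem levelInputs_of_canonInputs [Fintype (Σ q : ↥S, canonJ S U q)]
    (h : CanonInputs p S U hU) : LevelInputs p S U hU (canonT' S U) where
  covers q := covers_canonT (QuotientGroup.mk'_surjective U) (rS S) q
  finH1 := finH1_levU U hU
  finLoc := h.finLoc
  exists_count := h.exists_count

end Level

variable {p S}

/-- **THE LITERAL PLUG (P7')** from the arithmetic inputs at the canonical family of every level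
`U` on which `μ_p` is trivial. -/
theorem hilbertCount_of_canonInputs (hp2 : p ≠ 2)
    (h : ∀ (U : Subgroup GQ) (hU : U ∈ (globalLevels S).levels), (∀ s ∈ U, (mu p).ρ s = 1) →
      ∃ (_ : Fintype (Σ q : ↥S, @canonJ S U ((globalLevels S).normal U hU) q)),
        @CanonInputs p _ S U ((globalLevels S).normal U hU) hU _) :
    HilbertCount p S :=
  hilbertCount_of_inputs hp2 fun U hU hmu => by
    obtain ⟨hF, hin⟩ := h U hU hmu
    exact ⟨_, hF, _, @levelInputs_of_canonInputs p _ S U ((globalLevels S).normal U hU) hU hF hin⟩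

end Fermat.Agent.S55.CountWire23
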