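/-
S55 / 47f-COUNT-WIRE (helper23): Shapiro coordinates for the permutation module `k[G/U]`,
`U` a normal subgroup of finite index: `c a δ = a.coeff δ⁻¹`, so that
`c (g • a) δ = c a (δ * π g)` for `π = QuotientGroup.mk' U`.
This is the `CoindCoord` consumed by `ShapiroLevel32.shapiroH1/H2` for
`A = Contract34.perm p U = Rep.ofMulAction (ZMod p) G_ℚ (G_ℚ ⧸ U)`.
-/
import Fermat.Agent.S55.ShapiroLevel32.Equiv

set_option autoImplicit false

universe u

open CategoryTheory groupCohomology

namespace Fermat.Agent.S55.CountWire23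

open Fermat.Agent.S55.Profin15 Fermat.Agent.S55.ShapiroLevel32

variable {k G : Type u} [CommRing k] [Group G] (U : Subgroup G) [U.Normal]

lemma smul_eq_mk'_mul (g : G) (δ : G ⧸ U) : g • δ = QuotientGroup.mk' U g * δ := by
  induction δ using QuotientGroup.induction_on with
  | H x => rfl

omit [U.Normal] in
/-- the coefficient of `ρ g a` at `y` is the coefficient of `a` at `g⁻¹ • y` -/
lemma ofMulAction_coeff (g : G) (a : MonoidAlgebra k (G ⧸ U)) (y : G ⧸ U) :
    (Representation.ofMulAction k G (G ⧸ U) g a).coeff y = a.coeff (g⁻¹ • y) := by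
  have hinj : Function.Injective (fun x : G ⧸ U => g • x) := MulAction.injective g
  have hy : y = (fun x : G ⧸ U => g • x) (g⁻¹ • y) := by simp
  have h1 : (Representation.ofMulAction k G (G ⧸ U) g a).coeff =
      Finsupp.mapDomain (fun x : G ⧸ U => g • x) a.coeff := rfl
  rw [h1]
  conv_lhs => rw [hy]
  exact Finsupp.mapDomain_apply hinj _ _

variable (k) in
/-- **Shapiro coordinates on the permutation module** `k[G/U]`. -/
noncomputable def permCoord [Finite (G ⧸ U)] :
    CoindCoord (QuotientGroup.mk' U) (Rep.ofMulAction k G (G ⧸ U)) where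
  c := ((MonoidAlgebra.coeffLinearEquiv k).trans
      (Finsupp.linearEquivFunOnFinite k k (G ⧸ U))).trans
      (LinearEquiv.funCongrLeft k k (Equiv.inv (G ⧸ U)))
  c_ρ g a δ := by
    show ((Rep.ofMulAction k G (G ⧸ U)).ρ g a).coeff δ⁻¹ =
      MonoidAlgebra.coeff a (δ * QuotientGroup.mk' U g)⁻¹
    have h := ofMulAction_coeff (k := k) U g a δ⁻¹
    have e : (QuotientGroup.mk' U) g⁻¹ * δ⁻¹ = (δ * QuotientGroup.mk' U g)⁻¹ := by
      rw [mul_inv_rev, map_inv]
    rw [smul_eq_mk'_mul, e] at h
    exact h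

@[simp] lemma permCoord_c_apply [Finite (G ⧸ U)] (a : MonoidAlgebra k (G ⧸ U)) (δ : G ⧸ U) :
    (permCoord k U).c a δ = a.coeff δ⁻¹ := rfl

end Fermat.Agent.S55.CountWire23
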