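/-
S55 / 47f-COUNT-WIRE (helper23): the ABSTRACT wire for the literal count plug (P7')
`Contract34.HilbertCount p S`.

For a level `U` (normal, of finite index, `U ∈ (globalLevels S).levels`), Shapiro
(`ShapiroLevel32.shapiroH1/H2` with the coordinates `permCoord`) identifies
`Hⁱ(globalLevels S; 𝔽_p[G_ℚ/U])` with `Hⁱ(ULevels; 𝔽_p)` (trivial coefficients; `ULevels` = the
`S`-level structure restricted to `U`, so this is `Hⁱ(G_{L,S}, 𝔽_p)`, `L` the fixed field of `U`).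

`shaF_count_of_level` : ANY finite family of "localisation maps" `loc₁ w`, `loc₂ w` on
`Hⁱ(ULevels; 𝔽_p)` such that
* (T2) Shapiro sends `ShaF₂ S (perm p U)` into `⋂ w, ker (loc₂ w)`,
* (T1) inverse Shapiro sends `⋂ w, ker (loc₁ w)` into `ShaF₁ S (perm p U)`,
* (L) there are left non-degenerate local forms `β w` on the targets of `loc₁ w`,
* (R) isotropy / reciprocity: `∑ w, β w (loc₁ w x) (loc₁ w y) = 0`,
* (W) `∑ w, dim (target of loc₁ w) ≤ 2 d`, (B) `d + c ≤ dim H¹(ULevels; 𝔽_p)`,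
* (Q) `⋂ w, ker (loc₂ w)` is finite of dimension `≤ c`,
gives `Module.Finite (ShaF₂ S (perm p U)) ∧ finrank (ShaF₂ ..) ≤ finrank (ShaF₁ ..)`,
and `hilbertCount_of_levels` turns this (for all `U` acting trivially on `μ_p`, `p` odd) into the
literal plug `Contract34.HilbertCount p S`.
-/
import Fermat.Agent.S55.Profin15.ContractF
import Fermat.Agent.S55.S2Hilbert47.Isotropy
import Fermat.Agent.S55.CountWire23.PermCoord

set_option autoImplicit false

open CategoryTheory Module groupCohomology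

namespace Fermat.Agent.S55.CountWire23

open Fermat.Agent.S55.Profin15 Fermat.Agent.S55.ShapiroLevel32
open Fermat.Agent.Lib.FrobeniusExists (Qb GQ)
open Fermat.Agent.S55.Contract34

/-! ### Linear algebra -/

section LinAlg

variable {k : Type*} [Field k]
  {X₁ X₂ Y₁ Y₂ : Type*} [AddCommGroup X₁] [Module k X₁] [AddCommGroup X₂] [Module k X₂]
  [AddCommGroup Y₁] [Module k Y₁] [AddCommGroup Y₂] [Module k Y₂]

/-- transport of a count `dim Q₂ ≤ dim Q₁` along an isomorphism in degree `1` and an injection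
in degree `2`. -/
theorem finite_and_finrank_le_of_transport
    (e₁ : X₁ ≃ₗ[k] Y₁) (e₂ : X₂ →ₗ[k] Y₂) (he₂ : Function.Injective e₂)
    (P₁ : Submodule k X₁) (P₂ : Submodule k X₂) (Q₁ : Submodule k Y₁) (Q₂ : Submodule k Y₂)
    (h₂ : ∀ x ∈ P₂, e₂ x ∈ Q₂) (h₁ : ∀ y ∈ Q₁, e₁.symm y ∈ P₁)
    [Module.Finite k Q₂] [Module.Finite k Y₁] (hc : finrank k Q₂ ≤ finrank k Q₁) :
    Module.Finite k P₂ ∧ finrank k P₂ ≤ finrank k P₁ := by
  -- degree 2: `P₂ ↪ Q₂`
  let j₂ : ↥P₂ →ₗ[k] ↥Q₂ := (e₂.comp P₂.subtype).codRestrict Q₂ (fun x => h₂ x.1 x.2)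
  have hj₂ : Function.Injective j₂ := by
    intro x y hxy
    have : e₂ x.1 = e₂ y.1 := congrArg Subtype.val hxy
    exact Subtype.ext (he₂ this)
  -- degree 1: `Q₁ ↪ P₁`
  let j₁ : ↥Q₁ →ₗ[k] ↥P₁ :=
    (e₁.symm.toLinearMap.comp Q₁.subtype).codRestrict P₁ (fun y => h₁ y.1 y.2)
  have hj₁ : Function.Injective j₁ := by
    intro x y hxy
    have : e₁.symm x.1 = e₁.symm y.1 := congrArg Subtype.val hxy
    exact Subtype.ext (e₁.symm.injective this)
  have : Module.Finite k X₁ := Module.Finite.equiv e₁.symm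
  have : Module.Finite k ↥P₁ := inferInstance
  have hfin : Module.Finite k ↥P₂ := Module.Finite.of_injective j₂ hj₂
  refine ⟨hfin, ?_⟩
  calc finrank k ↥P₂ ≤ finrank k ↥Q₂ := LinearMap.finrank_le_finrank_of_injective hj₂
    _ ≤ finrank k ↥Q₁ := hc
    _ ≤ finrank k ↥P₁ := LinearMap.finrank_le_finrank_of_injective hj₁

end LinAlg

/-! ### The level `U` -/

section Level

variable (p : ℕ) [Fact p.Prime] (S : Finset Nat.Primes)

/-- the quotient map `G_ℚ → G_ℚ/U` -/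
noncomputable abbrev proj (U : Subgroup GQ) [U.Normal] : GQ →* GQ ⧸ U := QuotientGroup.mk' U

lemma hkerOf {U : Subgroup GQ} [U.Normal] (hU : U ∈ (globalLevels S).levels) :
    ∃ V ∈ (globalLevels S).levels, V ≤ (proj U).ker :=
  ⟨U, hU, by rw [QuotientGroup.ker_mk']⟩

/-- the `S`-level structure restricted to `U = ker (G_ℚ → G_ℚ/U)`; its level cohomology is
`H^*(G_{L,S}, -)`, `L` the fixed field of `U`. -/
noncomputable abbrev ULevels (U : Subgroup GQ) [U.Normal] (hU : U ∈ (globalLevels S).levels) :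
    LevelStr ↥(proj U).ker :=
  kerLevels (globalLevels S) (hkerOf S hU)

/-- trivial coefficients `𝔽_p` on `U` -/
noncomputable abbrev trivU (U : Subgroup GQ) [U.Normal] : Rep (ZMod p) ↥(proj U).ker :=
  triv (ZMod p) ↥(proj U).ker

variable {p S}

/-- **The abstract wire at one level `U`.** -/
theorem shaF_count_of_level (U : Subgroup GQ) [U.Normal] [Finite (GQ ⧸ U)]
    (hU : U ∈ (globalLevels S).levels) (σ : Sect (proj U))
    {W : Type} [Fintype W] [DecidableEq W] {V₁ V₂ : W → Type}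
    [∀ w, AddCommGroup (V₁ w)] [∀ w, Module (ZMod p) (V₁ w)]
    [∀ w, AddCommGroup (V₂ w)] [∀ w, Module (ZMod p) (V₂ w)]
    (loc₁ : ∀ w, (ULevels S U hU).H1 (trivU p U) →ₗ[ZMod p] V₁ w)
    (loc₂ : ∀ w, (ULevels S U hU).H2 (trivU p U) →ₗ[ZMod p] V₂ w)
    (T2 : ∀ x ∈ ShaF₂ S (perm p U), ∀ w,
      loc₂ w (shH2 (globalLevels S) (hkerOf S hU) (permCoord (ZMod p) U) x) = 0)
    (T1 : ∀ y : (ULevels S U hU).H1 (trivU p U), (∀ w, loc₁ w y = 0) →
      (shapiroH1 (globalLevels S) (hkerOf S hU) (permCoord (ZMod p) U) σ).symm y ∈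
        ShaF₁ S (perm p U))
    (β : ∀ w, V₁ w →ₗ[ZMod p] V₁ w →ₗ[ZMod p] ZMod p) (hβ : ∀ w, (β w).SeparatingLeft)
    (hiso : ∀ x y, ∑ w, β w (loc₁ w x) (loc₁ w y) = 0) {d c : ℕ}
    (hW : ∑ w, finrank (ZMod p) (V₁ w) ≤ 2 * d)
    (hB : d + c ≤ finrank (ZMod p) ((ULevels S U hU).H1 (trivU p U)))
    [Module.Finite (ZMod p) ((ULevels S U hU).H1 (trivU p U))]
    [∀ w, Module.Finite (ZMod p) (V₁ w)]
    (hfin₂ : Module.Finite (ZMod p)
      ↥(⨅ w, LinearMap.ker (loc₂ w) : Submodule (ZMod p) ((ULevels S U hU).H2 (trivU p U))))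
    (hQ : finrank (ZMod p)
      ↥(⨅ w, LinearMap.ker (loc₂ w) : Submodule (ZMod p) ((ULevels S U hU).H2 (trivU p U))) ≤ c) :
    Module.Finite (ZMod p) ↥(ShaF₂ S (perm p U)) ∧
      finrank (ZMod p) ↥(ShaF₂ S (perm p U)) ≤ finrank (ZMod p) ↥(ShaF₁ S (perm p U)) := by
  have hc : c ≤ finrank (ZMod p)
      ↥(⨅ w, LinearMap.ker (loc₁ w) : Submodule (ZMod p) ((ULevels S U hU).H1 (trivU p U))) :=
    S2Hilbert47.Isotropy.le_finrank_ker_of_isotropic_pi β hβ loc₁ hiso hW hB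
  refine finite_and_finrank_le_of_transport
    (shapiroH1 (globalLevels S) (hkerOf S hU) (permCoord (ZMod p) U) σ)
    (shH2 (globalLevels S) (hkerOf S hU) (permCoord (ZMod p) U))
    ?_ (ShaF₁ S (perm p U)) (ShaF₂ S (perm p U)) (⨅ w, LinearMap.ker (loc₁ w))
    (⨅ w, LinearMap.ker (loc₂ w)) ?_ ?_ (hQ.trans hc)
  · intro x y hxy
    exact (shapiroH2 (globalLevels S) (hkerOf S hU) (permCoord (ZMod p) U) σ).injective hxy
  · intro x hx
    simp only [Submodule.mem_iInf, LinearMap.mem_ker]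
    exact T2 x hx
  · intro y hy
    simp only [Submodule.mem_iInf, LinearMap.mem_ker] at hy
    exact T1 y hy

variable (p S)

/-- the count at level `U`, finite places only -/
def LevelCountF (U : Subgroup GQ) : Prop :=
  Module.Finite (ZMod p) ↥(ShaF₂ S (perm p U)) ∧
    finrank (ZMod p) ↥(ShaF₂ S (perm p U)) ≤ finrank (ZMod p) ↥(ShaF₁ S (perm p U))

/-- **the literal plug (P7')** from the counts at all levels acting trivially on `μ_p`. -/
theorem hilbertCount_of_levels (hp2 : p ≠ 2)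
    (h : ∀ U ∈ (globalLevels S).levels, (∀ s ∈ U, (mu p).ρ s = 1) → LevelCountF p S U) :
    HilbertCount p S :=
  (Plug.hilbertCount_iff_F p S hp2).2 h

end Level

end Fermat.Agent.S55.CountWire23
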