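/-
S55 / 47f-COUNT-WIRE (helper23, OWNER of the literal plug (P7') `Contract34.HilbertCount p S`):
THE FINAL ASSEMBLY.

`hilbertCount_of_plugs` : for `p` odd, `p ∈ S`,

  (P3P4) `Plug.ReciprocityL p S`            [literal plug, level form of `Contract34.Reciprocity`]
  (P2)   `∀ q ∈ S, Plug.LocalRightExactL p q` [literal plug, level form of `LocalRightExact`]
  (A4)   `ShapiroLevel32.LocalBaseDim p S`   [`dim H²(G_{L_w}; 𝔽_p) ≤ 1`, the input of (P5)]
  (S1)   `ShaKernel p S`                     [kernel half of (S1) at every level `U`: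
                                              `Ш²(G_{L,S}; 𝔽_p) ⊆ range δ₁(H¹(G_{L,S}; E_S))`]

  ⟹ `Contract34.HilbertCount p S`.

Everything else is proved: `hrec` + `Λ_w ≠ 0` (helper84 `HrecTrace84.exists_Lam_canon`), `hnd`
(helper47 `HndBase.hnd_of_base` + helper21 47d), `finLoc` + `hW` (helper50 `PlaceCount50`),
(K) + (Q)-bookkeeping (helper92 `S2Count92.levelInputs_of_hsha`, helper96 `CountWire96`), `finH1`
(`finH1_levU`), the transport (helper84 `ShaTransport84`) and the count
(helper47 `LevelCup47.Iso.le_finrank_sha1`).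
-/
import Fermat.Agent.S55.CountWire23.Canon
import Fermat.Agent.S55.HrecTrace84.Global
import Fermat.Agent.S55.LevelCup47.HndBase
import Fermat.Agent.S55.PlaceCount50.CanonFields
import Fermat.Agent.S55.S2Count92.LevelInputs92

set_option autoImplicit false
set_option linter.style.haveILetI false

open CategoryTheory Module groupCohomology NumberField IsDedekindDomain ExtCitation

namespace Fermat.Agent.S55.CountWire23

open Fermat.Agent.S55.Profin15 Fermat.Agent.S55.ShapiroLevel32 Fermat.Agent.S55.ShaTransport84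
open Fermat.Agent.S55.LevelCup47
open Fermat.Agent.Lib.FrobeniusExists (Qb GQ)
open Fermat.Agent.S55.Contract34

variable (p : ℕ) [Fact p.Prime] (S : Finset Nat.Primes)

/-- **(S1)-kernel at every level**: for every level `U` on which `μ_p` is trivial, every class of
`H²(levU; 𝔽_p)` which dies at all the conjugates `canonT'` (= at all places of `L` above `S`) is
in the image of the Kummer connecting map `δ₁ : H¹(levU; E_S) → H²(levU; 𝔽_p)`
(`S2Count92.kummerδ₁U`), for every primitive `p`-th root of unity `ζ`.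
Producer: 46-S1 (`S1_67.Level.sha2_iff`) at the level `U`. -/
def ShaKernel : Prop :=
  ∀ (hpS : pPrime p ∈ S) (U : Subgroup GQ) (hU : U ∈ (globalLevels S).levels)
    (hmu : ∀ s ∈ U, (mu p).ρ s = 1) (ζ : Qbˣ) (hζ : IsPrimitiveRoot ζ p),
    haveI := (globalLevels S).normal U hU
    ∀ x ∈ USha₂ (k := ZMod p) (hrS S) (hker_mk' hU) (canonT' S U),
      ∃ a, S2Count92.kummerδ₁U hU hpS ζ hζ hmu a = x

variable {p S}

/-- the canonical inputs at one level from the plugs -/
theorem canonInputs_of_plugs (hp2 : p ≠ 2) (hpS : pPrime p ∈ S)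
    (hrecip : Plug.ReciprocityL p S) (hlre : ∀ q ∈ S, Plug.LocalRightExactL p q)
    (hbase : LocalBaseDim p S) (hsha : ShaKernel p S)
    (U : Subgroup GQ) [U.Normal] (hU : U ∈ (globalLevels S).levels)
    (hmu : ∀ s ∈ U, (mu p).ρ s = 1) [Fintype (Σ q : ↥S, canonJ S U q)] :
    LevelInputs p S U hU (canonT' S U) := by
  classical
  -- the field `L`
  obtain ⟨L, hfin, hnor, hunr, hUL⟩ := PlaceCount50.exists_field_of_mem_globalLevels hU
  haveI := hfin
  haveI := hnor
  haveI : NumberField L := ⟨⟩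
  -- a primitive root of unity
  haveI : NeZero ((p : ℕ) : Qb) := ⟨by exact_mod_cast (Fact.out : p.Prime).ne_zero⟩
  obtain ⟨ζ₀, hζ₀⟩ := HasEnoughRootsOfUnity.exists_primitiveRoot Qb p
  have hζ₀ne : ζ₀ ≠ 0 := hζ₀.ne_zero (Fact.out : p.Prime).ne_zero
  let ζ : Qbˣ := Units.mk0 ζ₀ hζ₀ne
  have hζ : IsPrimitiveRoot ζ p := by
    have : ((ζ : Qbˣ) : Qb) = ζ₀ := rfl
    exact IsPrimitiveRoot.coe_units_iff.1 (this ▸ hζ₀)
  -- reciprocity at the level `U`
  obtain ⟨Λ, hne, hrec⟩ := HrecTrace84.exists_Lam_canon (p := p) (S := S) (U := U) hU hmu hrecip hlre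
  exact S2Count92.levelInputs_of_hsha hU hpS ζ hζ hmu (canonT' S U)
    (fun q => covers_canonT (QuotientGroup.mk'_surjective U) (rS S) q)
    (finH1_levU U hU)
    (fun w => PlaceCount50.finLoc_of_mu p S U hU hmu w)
    L hUL (ESDiv20.le_QS hunr) (PlaceCount50.primesAboveSet L S)
    (PlaceCount50.mem_primesAboveSet_iff L S) hp2 Λ
    (HndBase.hnd_of_base hbase U hU hmu Λ hne) hrec
    (PlaceCount50.hW_canon p S U hU hpS hp2 L hUL hmu)
    (hsha hpS U hU hmu ζ hζ)

/-- **THE LITERAL PLUG (P7') FROM THE OTHER PLUGS + THE KERNEL HALF OF (S1).** -/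
theorem hilbertCount_of_plugs (hp2 : p ≠ 2) (hpS : pPrime p ∈ S)
    (hrecip : Plug.ReciprocityL p S) (hlre : ∀ q ∈ S, Plug.LocalRightExactL p q)
    (hbase : LocalBaseDim p S) (hsha : ShaKernel p S) : HilbertCount p S :=
  hilbertCount_of_inputs hp2 fun U hU hmu => by
    haveI := (globalLevels S).normal U hU
    haveI : Finite (GQ ⧸ U) := by
      haveI := (globalLevels S).finiteIndex U hU
      exact Subgroup.finite_quotient_of_finiteIndex
    exact ⟨_, canonFintype S U, _,
      @canonInputs_of_plugs p _ S hp2 hpS hrecip hlre hbase hsha U _ hU hmu (canonFintype S U)⟩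

end Fermat.Agent.S55.CountWire23
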