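/-
S55 / 47f-COUNT-WIRE (helper23): the representatives `τ.R` of an orbit section
(`ShapiroLevel32.OrbSect π`) are in bijection with the coset space `Γ ⧸ π.range`.
USE: helper84's `HrecTrace84` family is indexed by `(τ q).R` (`π := (mk' U).comp (primeLocalToGlobal q)`),
helper50's place count `PlaceCount50.card_canonJ` by
`canonJ S U q = (G_ℚ ⧸ U) ⧸ ((mk' U).comp (primeLocalToGlobal q)).range`.
-/
import Fermat.Agent.S55.ShapiroLevel32.Orbit

set_option autoImplicit false

universe u

namespace Fermat.Agent.S55.CountWire23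

open Fermat.Agent.S55.ShapiroLevel32

variable {G Γ : Type u} [Group G] [Group Γ] {π : G →* Γ} (τ : OrbSect π)

/-- `τ.R ≃ Γ ⧸ π.range` : a representative goes to its coset. -/
noncomputable def orbSectEquivQuot : τ.R ≃ Γ ⧸ π.range where
  toFun ρ := QuotientGroup.mk (ρ : Γ)
  invFun := Quotient.lift (fun δ : Γ => τ.repR δ) (by
    intro a b hab
    have h : a⁻¹ * b ∈ π.range := QuotientGroup.leftRel_apply.1 hab
    obtain ⟨g, hg⟩ := h
    have hb : b = a * π g := by rw [hg, mul_inv_cancel_left]
    apply Subtype.ext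
    show τ.rep a = τ.rep b
    rw [hb, τ.rep_mul])
  left_inv ρ := by
    show τ.repR (ρ : Γ) = ρ
    exact τ.repR_coe ρ
  right_inv x := by
    induction x using QuotientGroup.induction_on with
    | H δ =>
      show (QuotientGroup.mk (τ.rep δ) : Γ ⧸ π.range) = QuotientGroup.mk δ
      rw [QuotientGroup.eq]
      exact ⟨τ.s δ, τ.π_s δ⟩

@[simp] lemma orbSectEquivQuot_apply (ρ : τ.R) :
    orbSectEquivQuot τ ρ = (QuotientGroup.mk (ρ : Γ) : Γ ⧸ π.range) := rfl

lemma card_orbSect_R : Nat.card τ.R = Nat.card (Γ ⧸ π.range) :=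
  Nat.card_congr (orbSectEquivQuot τ)

instance [Finite Γ] : Finite τ.R := Subtype.finite

end Fermat.Agent.S55.CountWire23
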